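import Fermat.Agent.S41.H40.FormsOfBetti

/-!
# S41, leaf T1: the complex Betti eigenvector of a normalised eigenform

* `formOp_eq_smul`: a normalised eigenform `f` (in the Prelude sense: coefficient relations) is an
  eigenvector of every `formOp N ℓ` (`T_ℓ` for `ℓ ∤ N`, `U_ℓ` for `ℓ ∣ N`) with eigenvalue
  `a_ℓ(f)`.
* `exists_eigenHom_of_eigenform`: `x := periodHomPair N (f, 0)` is a nonzero parabolic class with
  `heckeHom N ℓ ℂ x = a_ℓ(f) • x` for every prime `ℓ`.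
-/

set_option autoImplicit false
open CongruenceSubgroup ModularCurve ModularCurve.Period
open Fermat.Agent.S16.H75 (heckeHom formOp)
open ModularFormClass (qCoeff)

namespace Fermat.Agent.S41.H16

section Coeff

variable {N : ℕ} {f : CuspForm (Gamma0 N) 2}

/-- `a_{ℓ^k m} = a_{ℓ^k} a_m` for `ℓ ∤ m`. -/
theorem qCoeff_pow_mul (hf : f.IsNormalizedEigenform) {ℓ : ℕ} (hℓ : ℓ.Prime) (k : ℕ) {m : ℕ}
    (hm : ¬ ℓ ∣ m) : qCoeff f (ℓ ^ k * m) = qCoeff f (ℓ ^ k) * qCoeff f m :=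
  hf.qCoeff_mul_of_coprime _ _ (Nat.Coprime.pow_left k ((Nat.Prime.coprime_iff_not_dvd hℓ).mpr hm))

/-- The coefficient relation at a prime not dividing the level. -/
theorem qCoeff_mul_prime_of_not_dvd (hf : f.IsNormalizedEigenform) {ℓ : ℕ} (hℓ : ℓ.Prime)
    (hℓN : ¬ ℓ ∣ N) (n : ℕ) :
    qCoeff f (n * ℓ) + (if ℓ ∣ n then (ℓ : ℂ) * qCoeff f (n / ℓ) else 0) =
      qCoeff f ℓ * qCoeff f n := by
  rcases Nat.eq_zero_or_pos n with rfl | hn
  · have h0 : qCoeff f 0 = 0 := Fermat.Agent.S49.qCoeff_cusp_zero f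
    simp [h0]
  obtain ⟨r, m, hm, rfl⟩ := Nat.exists_eq_pow_mul_and_not_dvd hn.ne' ℓ hℓ.ne_one
  cases r with
  | zero =>
    have hnd : ¬ ℓ ∣ ℓ ^ 0 * m := by simpa using hm
    rw [if_neg hnd, add_zero]
    have h1 : ℓ ^ 0 * m * ℓ = ℓ ^ 1 * m := by ring
    rw [h1, qCoeff_pow_mul hf hℓ 1 hm, pow_one, pow_zero, one_mul]
  | succ s =>
    have hd : ℓ ∣ ℓ ^ (s + 1) * m := Dvd.dvd.mul_right (dvd_pow_self ℓ (Nat.succ_ne_zero s)) m
    rw [if_pos hd]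
    have h1 : ℓ ^ (s + 1) * m * ℓ = ℓ ^ (s + 2) * m := by ring
    have h2 : ℓ ^ (s + 1) * m / ℓ = ℓ ^ s * m := by
      rw [pow_succ, mul_assoc, mul_comm ℓ m, ← mul_assoc]
      exact Nat.mul_div_cancel _ hℓ.pos
    rw [h1, h2, qCoeff_pow_mul hf hℓ (s + 2) hm, qCoeff_pow_mul hf hℓ s hm,
      qCoeff_pow_mul hf hℓ (s + 1) hm, hf.qCoeff_prime_pow_of_not_dvd ℓ s hℓ hℓN]
    ring

/-- The coefficient relation at a prime dividing the level. -/
theorem qCoeff_mul_prime_of_dvd (hf : f.IsNormalizedEigenform) {ℓ : ℕ} (hℓ : ℓ.Prime)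
    (hℓN : ℓ ∣ N) (n : ℕ) : qCoeff f (n * ℓ) = qCoeff f ℓ * qCoeff f n := by
  rcases Nat.eq_zero_or_pos n with rfl | hn
  · have h0 : qCoeff f 0 = 0 := Fermat.Agent.S49.qCoeff_cusp_zero f
    simp [h0]
  obtain ⟨r, m, hm, rfl⟩ := Nat.exists_eq_pow_mul_and_not_dvd hn.ne' ℓ hℓ.ne_one
  cases r with
  | zero =>
    have h1 : ℓ ^ 0 * m * ℓ = ℓ ^ 1 * m := by ring
    rw [h1, qCoeff_pow_mul hf hℓ 1 hm, pow_one, pow_zero, one_mul]
  | succ s =>
    have h1 : ℓ ^ (s + 1) * m * ℓ = ℓ ^ (s + 2) * m := by ring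
    have key : qCoeff f (ℓ ^ (s + 2)) = qCoeff f ℓ * qCoeff f (ℓ ^ (s + 1)) :=
      hf.qCoeff_prime_pow_of_dvd ℓ s hℓ hℓN
    rw [h1, qCoeff_pow_mul hf hℓ (s + 2) hm, qCoeff_pow_mul hf hℓ (s + 1) hm, key]
    ring

end Coeff

/-- A normalised eigenform is an eigenvector of every `formOp N ℓ`, with eigenvalue `a_ℓ`. -/
theorem formOp_eq_smul (N : ℕ) [NeZero N] (f : CuspForm (Gamma0 N) 2)
    (hf : f.IsNormalizedEigenform) (l : Nat.Primes) :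
    formOp N l f = qCoeff f l • f := by
  obtain ⟨ℓ, hℓ⟩ := l
  rw [← sub_eq_zero]
  apply Fermat.Agent.S49.eq_zero_of_qCoeff
  intro n
  have hsub : ∀ g h : CuspForm (Gamma0 N) 2, qCoeff ⇑(g - h) n = qCoeff ⇑g n - qCoeff ⇑h n := by
    intro g h
    have h1 : g - h = g + (-1 : ℂ) • h := by simp [sub_eq_add_neg]
    rw [h1, Fermat.Agent.S49.qCoeff_add, Fermat.Agent.S49.qCoeff_smul]
    ring
  rw [hsub, Fermat.Agent.S49.qCoeff_smul, sub_eq_zero]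
  by_cases hℓN : ℓ ∣ N
  · rw [Fermat.Agent.S41.H40.formOp_of_dvd hℓ hℓN, Fermat.Agent.S49.qCoeff_heckeULin hℓ hℓN]
    exact qCoeff_mul_prime_of_dvd hf hℓ hℓN n
  · rw [Fermat.Agent.S41.H40.formOp_of_not_dvd hℓ hℓN, Fermat.Agent.S49.qCoeff_heckeTLin hℓ hℓN]
    exact qCoeff_mul_prime_of_not_dvd hf hℓ hℓN n

/-- **Leaf T1.**  The complex Betti eigenvector of a normalised eigenform. -/
theorem exists_eigenHom_of_eigenform (N : ℕ) [NeZero N] (f : CuspForm (Gamma0 N) 2)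
    (hf : f.IsNormalizedEigenform) :
    ∃ x : Additive (Gamma0 N) →+ ℂ, x ∈ parabolicHoms ℂ (Gamma0 N) ℂ ∧ x ≠ 0 ∧
      ∀ l : Nat.Primes, heckeHom N l ℂ x = qCoeff f l • x := by
  obtain ⟨hinj, hrange⟩ := Fermat.Agent.S21.result N
  refine ⟨periodHomPair N (f, 0), ?_, ?_, ?_⟩
  · rw [← hrange]
    exact ⟨(f, 0), rfl⟩
  · intro h0
    have h1 : ((f, 0) : CuspForm (Gamma0 N) 2 × CuspForm (Gamma0 N) 2) = 0 :=
      hinj (h0.trans (map_zero _).symm)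
    have hf0 : f = 0 := congrArg Prod.fst h1
    have h2 := hf.qCoeff_one
    rw [hf0] at h2
    have h3 : qCoeff (⇑(0 : CuspForm (Gamma0 N) 2)) 1 = 0 := by
      have := Fermat.Agent.S49.qCoeff_smul (0 : ℂ) (0 : CuspForm (Gamma0 N) 2) 1
      simpa using this
    rw [h3] at h2
    exact zero_ne_one h2
  · intro l
    rw [← Fermat.Agent.S16.H75.periodHomPair_formOp, formOp_eq_smul N f hf l, map_zero,
      ← map_smul, Prod.smul_mk, smul_zero]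

end Fermat.Agent.S41.H16
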