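import Mathlib
import Fermat.Prelude.Def_FLTPrelim_ModularRep
import Fermat.Agent.S16.H75.Gamma0Hecke
import Fermat.Agent.S22.H75.Gamma0FG

/-!
# S41, leaf RED (reduction half): from a complex Betti eigenvector to a mod `p` eigenvector

`exists_modp_hom`: for a nonzero parabolic `x : Γ₀(N) → ℂ` and a maximal ideal `𝔪 ∋ p` of
`ℤ̄ = integralClosure ℤ ℂ` there is a nonzero parabolic, torsion-killing `y : Γ₀(N) → ℤ/p` such
that every eigen-relation `T_ℓ x = c • x` with `c ∈ ℤ̄`, `c ≡ n mod 𝔪`, `n ∈ ℤ`, becomes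
`T_ℓ y = n • y`.

Proof: `Λ := ℤ̄`-span of the image of `x` (finitely generated since `Γ₀(N)` is), Nakayama gives
`𝔪 Λ ≠ Λ`, and an `𝔽_p`-linear functional on `Λ / 𝔪 Λ` not killing the image of `x` is composed
with `x`.  No lattice, no number field, no valuation ring.
-/

set_option autoImplicit false

open CongruenceSubgroup ModularCurve ModularCurve.Period
open Fermat.Agent.S16.H75 (heckeHom)

namespace Fermat.Agent.S41.H16

/-- The image of a homomorphism on a finitely generated group lies in the span of finitely many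
values. -/
theorem range_subset_span_of_fg {G : Type*} [Group G] [Group.FG G] {R : Type*} [CommRing R]
    {M : Type*} [AddCommGroup M] [Module R M] (x : Additive G →+ M) :
    ∃ s : Finset M, (s : Set M) ⊆ Set.range x ∧ Set.range x ⊆ Submodule.span R (s : Set M) := by
  classical
  obtain ⟨X, hX⟩ := Group.fg_def.mp (inferInstance : Group.FG G)
  refine ⟨X.image fun g => x (Additive.ofMul g), ?_, ?_⟩
  · intro m hm
    rw [Finset.coe_image] at hm
    obtain ⟨g, -, rfl⟩ := hm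
    exact ⟨_, rfl⟩
  · rintro _ ⟨γ, rfl⟩
    have hmem : Additive.toMul γ ∈ Subgroup.closure (X : Set G) := by rw [hX]; trivial
    have key : ∀ g ∈ Subgroup.closure (X : Set G),
        x (Additive.ofMul g) ∈ Submodule.span R
          ((X.image fun g => x (Additive.ofMul g) : Finset M) : Set M) := by
      intro g hg
      induction hg using Subgroup.closure_induction with
      | mem g hg =>
        apply Submodule.subset_span
        rw [Finset.coe_image]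
        exact ⟨g, hg, rfl⟩
      | one =>
        have : x (Additive.ofMul (1 : G)) = 0 := map_zero x
        rw [this]; exact Submodule.zero_mem _
      | mul g h _ _ hg hh =>
        have : x (Additive.ofMul (g * h)) = x (Additive.ofMul g) + x (Additive.ofMul h) :=
          map_add x (Additive.ofMul g) (Additive.ofMul h)
        rw [this]; exact Submodule.add_mem _ hg hh
      | inv g _ hg =>
        have : x (Additive.ofMul g⁻¹) = - x (Additive.ofMul g) :=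
          map_neg x (Additive.ofMul g)
        rw [this]; exact Submodule.neg_mem _ hg
    exact key _ hmem


/-- A nonzero vector is detected by an additive functional to the field of scalars. -/
theorem exists_addHom_ne_zero (K : Type*) [Field K] {Q : Type*} [AddCommGroup Q] [Module K Q]
    {v : Q} (hv : v ≠ 0) : ∃ ψ : Q →+ K, ψ v ≠ 0 := by
  by_contra hcon
  push Not at hcon
  exact hv ((Module.forall_dual_apply_eq_zero_iff K v).mp fun φ => hcon φ.toAddMonoidHom)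

/-- A nonzero element of an abelian group killed by a prime `p` is detected by a homomorphism
to `ℤ/p`. -/
theorem exists_hom_zmod_ne_zero {p : ℕ} [Fact p.Prime] {Q : Type*} [AddCommGroup Q]
    (hkill : ∀ q : Q, p • q = 0) {v : Q} (hv : v ≠ 0) : ∃ ψ : Q →+ ZMod p, ψ v ≠ 0 :=
  @exists_addHom_ne_zero (ZMod p) _ Q _ (AddCommGroup.zmodModule hkill) v hv

local notation "Zb" => integralClosure ℤ ℂ

/-- **Reduction of a complex Betti class modulo a maximal ideal of `ℤ̄`.**  For a nonzero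
parabolic `x : Γ₀(N) → ℂ` and a maximal ideal `𝔪 ∋ p` of `ℤ̄` there is a nonzero parabolic
torsion-killing `y : Γ₀(N) → ℤ/p` such that every eigen-relation `T_ℓ x = c • x` with `c ∈ ℤ̄`
congruent to an integer `n` modulo `𝔪` becomes `T_ℓ y = n • y`. -/
theorem exists_modp_hom {N : ℕ} [NeZero N] {p : ℕ} (hp : p.Prime) (𝔪 : Ideal Zb)
    (hmax : 𝔪.IsMaximal) (hpm : (p : Zb) ∈ 𝔪)
    (x : Additive (Gamma0 N) →+ ℂ) (hx0 : x ≠ 0) (hxpar : IsParabolicHom (Gamma0 N) x) :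
    ∃ y : Additive (Gamma0 N) →+ ZMod p, y ≠ 0 ∧ IsParabolicHom (Gamma0 N) y ∧
      (∀ γ : Gamma0 N, IsOfFinOrder γ → y (Additive.ofMul γ) = 0) ∧
      ∀ (ℓ : Nat.Primes) (c : Zb) (n : ℤ), heckeHom N ℓ ℂ x = (c : ℂ) • x →
        c - (n : Zb) ∈ 𝔪 → heckeHom N ℓ (ZMod p) y = n • y := by
  classical
  have : Fact p.Prime := ⟨hp⟩
  have : Group.FG (Gamma0 N) := Fermat.Agent.S22.H75.fg_Gamma0 N
  -- the lattice `Λ`
  obtain ⟨s, hs1, hs2⟩ := range_subset_span_of_fg (R := Zb) x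
  let Λ : Submodule Zb ℂ := Submodule.span Zb (s : Set ℂ)
  have hΛfg : Λ.FG := ⟨s, rfl⟩
  have hxΛ : ∀ γ, x γ ∈ Λ := fun γ => hs2 ⟨γ, rfl⟩
  -- `x` as a homomorphism to `Λ`
  let xΛ : Additive (Gamma0 N) →+ Λ := x.codRestrict Λ hxΛ
  have hxΛ_coe : ∀ γ, ((xΛ γ : Λ) : ℂ) = x γ := fun γ => rfl
  -- the values of `xΛ` span `Λ`
  have hspan : Submodule.span Zb (Set.range xΛ) = ⊤ := by
    rw [eq_top_iff]
    rintro ⟨v, hv⟩ -
    induction hv using Submodule.span_induction with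
    | mem v hv =>
      obtain ⟨γ, rfl⟩ := hs1 hv
      exact Submodule.subset_span ⟨γ, rfl⟩
    | zero => exact Submodule.zero_mem _
    | add u v hu hv hu' hv' => exact Submodule.add_mem _ hu' hv'
    | smul a v hv hv' => exact Submodule.smul_mem _ a hv'
  -- Nakayama: `𝔪 Λ ≠ Λ`
  have hnak : ¬ (⊤ : Submodule Zb Λ) ≤ 𝔪 • (⊤ : Submodule Zb Λ) := by
    intro hle
    have hfg : (⊤ : Submodule Zb Λ).FG := (Submodule.fg_top Λ).mpr hΛfg
    obtain ⟨r, hr1, hr0⟩ :=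
      Submodule.exists_sub_one_mem_and_smul_eq_zero_of_fg_of_le_smul 𝔪 _ hfg hle
    obtain ⟨γ₀, hγ₀⟩ : ∃ γ₀, x γ₀ ≠ 0 := by
      by_contra hcon
      push Not at hcon
      exact hx0 (AddMonoidHom.ext hcon)
    have h0 := hr0 (xΛ γ₀) Submodule.mem_top
    have h0' : (r : ℂ) * x γ₀ = 0 := by
      have := congrArg (fun v : Λ => (v : ℂ)) h0
      simpa [Submodule.coe_smul, hxΛ_coe] using this
    have hr : r = 0 := by
      rcases mul_eq_zero.mp h0' with h | h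
      · exact Subtype.ext h
      · exact absurd h hγ₀
    rw [hr, zero_sub] at hr1
    exact hmax.ne_top ((Ideal.eq_top_iff_one _).mpr (by simpa using 𝔪.neg_mem hr1))
  -- a value of `xΛ` outside `𝔪 Λ`
  obtain ⟨γ₀, hγ₀⟩ : ∃ γ₀, xΛ γ₀ ∉ 𝔪 • (⊤ : Submodule Zb Λ) := by
    by_contra hcon
    push Not at hcon
    apply hnak
    have hle : Submodule.span Zb (Set.range xΛ) ≤ 𝔪 • (⊤ : Submodule Zb Λ) := by
      rw [Submodule.span_le]
      rintro _ ⟨γ, rfl⟩
      exact hcon γ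
    rwa [hspan] at hle
  -- the quotient `Λ / 𝔪 Λ` is an `𝔽_p`-vector space
  let Q := Λ ⧸ (𝔪 • (⊤ : Submodule Zb Λ))
  let π : Λ →+ Q := (Submodule.mkQ (𝔪 • (⊤ : Submodule Zb Λ))).toAddMonoidHom
  have hπ0 : ∀ v : Λ, π v = 0 ↔ v ∈ 𝔪 • (⊤ : Submodule Zb Λ) := fun v =>
    Submodule.Quotient.mk_eq_zero _
  have hπm : ∀ (a : Zb) (v : Λ), a ∈ 𝔪 → π (a • v) = 0 := fun a v ha =>
    (hπ0 _).mpr (Submodule.smul_mem_smul ha Submodule.mem_top)
  have hkill : ∀ q : Q, p • q = 0 := by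
    intro q
    obtain ⟨v, rfl⟩ := Submodule.Quotient.mk_surjective _ q
    have h1 : p • (Submodule.Quotient.mk v : Q) = π ((p : Zb) • v) := by
      show p • π v = π ((p : Zb) • v)
      rw [← map_nsmul, Nat.cast_smul_eq_nsmul]
    rw [h1]
    exact hπm _ v hpm
  -- a functional not killing `π (xΛ γ₀)`
  have hv0 : π (xΛ γ₀) ≠ 0 := fun h => hγ₀ ((hπ0 _).mp h)
  obtain ⟨ψ, hψ⟩ := exists_hom_zmod_ne_zero hkill hv0
  let Ψ : Λ →+ ZMod p := ψ.comp π
  refine ⟨Ψ.comp xΛ, ?_, ?_, ?_, ?_⟩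
  · intro h
    exact hψ (DFunLike.congr_fun h γ₀)
  · intro γ hγ
    have h0 : xΛ (Additive.ofMul γ) = 0 := Subtype.ext (hxpar γ hγ)
    show Ψ (xΛ (Additive.ofMul γ)) = 0
    rw [h0, map_zero]
  · intro γ hγ
    obtain ⟨n, hn, hγn⟩ := hγ.exists_pow_eq_one
    have h1 : (n : ℂ) * x (Additive.ofMul γ) = 0 := by
      have h2 : x (n • Additive.ofMul γ) = n • x (Additive.ofMul γ) := map_nsmul x _ _
      have h3 : n • Additive.ofMul γ = Additive.ofMul (γ ^ n) := rfl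
      rw [h3, hγn] at h2
      have h4 : x (Additive.ofMul (1 : Gamma0 N)) = 0 := map_zero x
      rw [h4] at h2
      rw [← nsmul_eq_mul]; exact h2.symm
    have h5 : x (Additive.ofMul γ) = 0 := by
      rcases mul_eq_zero.mp h1 with h | h
      · exact absurd (Nat.cast_eq_zero.mp h) hn.ne'
      · exact h
    have h0 : xΛ (Additive.ofMul γ) = 0 := Subtype.ext h5
    show Ψ (xΛ (Additive.ofMul γ)) = 0
    rw [h0, map_zero]
  · intro ℓ c n hc hcn
    rw [Fermat.Agent.S16.H75.heckeHom_comp]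
    -- the eigen-relation over `Λ`
    have hΛeig : heckeHom N ℓ Λ xΛ = (DistribSMul.toAddMonoidHom Λ c).comp xΛ := by
      have hinj : Function.Injective (Λ.subtype.toAddMonoidHom) := Subtype.val_injective
      have h1 : Λ.subtype.toAddMonoidHom.comp (heckeHom N ℓ Λ xΛ) =
          Λ.subtype.toAddMonoidHom.comp ((DistribSMul.toAddMonoidHom Λ c).comp xΛ) := by
        rw [← Fermat.Agent.S16.H75.heckeHom_comp]
        have h2 : Λ.subtype.toAddMonoidHom.comp xΛ = x := AddMonoidHom.ext fun γ => rfl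
        rw [h2, hc]
        refine AddMonoidHom.ext fun γ => ?_
        show (c : ℂ) • x γ = ((c • xΛ γ : Λ) : ℂ)
        rw [Submodule.coe_smul, hxΛ_coe]
        rfl
      refine AddMonoidHom.ext fun γ => ?_
      exact hinj (DFunLike.congr_fun h1 γ)
    rw [hΛeig]
    refine AddMonoidHom.ext fun γ => ?_
    show Ψ (c • xΛ γ) = n • Ψ (xΛ γ)
    have h3 : c • xΛ γ = (c - (n : Zb)) • xΛ γ + n • xΛ γ := by
      have e1 : (c - (n : Zb)) • xΛ γ = c • xΛ γ - (n : Zb) • xΛ γ := sub_smul c (n : Zb) (xΛ γ)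
      have e2 : (n : Zb) • xΛ γ = n • xΛ γ := Int.cast_smul_eq_zsmul Zb n (xΛ γ)
      rw [e1, e2]; abel
    rw [h3, map_add, map_zsmul]
    have h4 : Ψ ((c - (n : Zb)) • xΛ γ) = 0 := by
      show ψ (π ((c - (n : Zb)) • xΛ γ)) = 0
      rw [hπm _ _ hcn, map_zero]
    rw [h4, zero_add]


/-- **Leaf RED from T1.**  The conclusion of the leaf `red` of the S41 top skeleton, from the
complex Betti eigenvector attached to the eigenform (`hT1`; it is produced by the Eichler–Shimura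
dictionary, leaf T1). -/
theorem red_of_eigenHom {W : WeierstrassCurve ℤ} {p N q' : ℕ} [NeZero N] (hp : p.Prime)
    (hq' : q'.Prime)
    (f : CuspForm (CongruenceSubgroup.Gamma0 N) 2) (𝔪 : Ideal (integralClosure ℤ ℂ))
    (hmax : 𝔪.IsMaximal) (hpm : (p : integralClosure ℤ ℂ) ∈ 𝔪)
    (hcong : ∀ ℓ : ℕ, ℓ.Prime → W.IsGoodPrimeFor ℓ → ¬ ℓ ∣ N → ℓ ≠ p →
      ∃ a : integralClosure ℤ ℂ, (a : ℂ) = ModularFormClass.qCoeff f ℓ ∧
        a - ((W.apOfModel ℓ : ℤ) : integralClosure ℤ ℂ) ∈ 𝔪)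
    (hLR : ∃ a : integralClosure ℤ ℂ, (a : ℂ) = ModularFormClass.qCoeff f q' ∧
      a ^ 2 - ((q' : integralClosure ℤ ℂ) + 1) ^ 2 ∈ 𝔪)
    (hT1 : ∃ x : Additive (Gamma0 N) →+ ℂ, x ∈ parabolicHoms ℂ (Gamma0 N) ℂ ∧ x ≠ 0 ∧
      ∀ l : Nat.Primes, heckeHom N l ℂ x = ModularFormClass.qCoeff f l • x) :
    ∃ (ε : ℤ) (x : Additive (Gamma0 N) →+ ZMod p), (ε = 1 ∨ ε = -1) ∧ x ≠ 0 ∧
      IsParabolicHom (Gamma0 N) x ∧
      (∀ γ : Gamma0 N, IsOfFinOrder γ → x (Additive.ofMul γ) = 0) ∧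
      (∀ ℓ : Nat.Primes, W.IsGoodPrimeFor ℓ → ¬ (ℓ : ℕ) ∣ N → (ℓ : ℕ) ≠ p →
        heckeHom N ℓ (ZMod p) x = W.apOfModel ℓ • x) ∧
      heckeHom N ⟨q', hq'⟩ (ZMod p) x = (ε * ((q' : ℤ) + 1)) • x := by
  obtain ⟨x, hxpar, hx0, hxeig⟩ := hT1
  obtain ⟨y, hy0, hypar, hyell, hyeig⟩ := exists_modp_hom hp 𝔪 hmax hpm x hx0 hxpar
  have hgood : ∀ ℓ : Nat.Primes, W.IsGoodPrimeFor ℓ → ¬ (ℓ : ℕ) ∣ N → (ℓ : ℕ) ≠ p →
      heckeHom N ℓ (ZMod p) y = W.apOfModel ℓ • y := by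
    intro ℓ hg hℓN hℓp
    obtain ⟨a, ha, ham⟩ := hcong ℓ ℓ.2 hg hℓN hℓp
    refine hyeig ℓ a (W.apOfModel ℓ) ?_ ham
    rw [hxeig ℓ, ha]
  obtain ⟨a, ha, ham⟩ := hLR
  have hfac : (a - ((q' : Zb) + 1)) * (a + ((q' : Zb) + 1)) ∈ 𝔪 := by
    have : (a - ((q' : Zb) + 1)) * (a + ((q' : Zb) + 1)) = a ^ 2 - ((q' : Zb) + 1) ^ 2 := by ring
    rw [this]; exact ham
  have hxq : heckeHom N ⟨q', hq'⟩ ℂ x = (a : ℂ) • x := by
    rw [hxeig ⟨q', hq'⟩, ha]
  rcases hmax.isPrime.mem_or_mem hfac with h | h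
  · refine ⟨1, y, Or.inl rfl, hy0, hypar, hyell, hgood, ?_⟩
    refine hyeig ⟨q', hq'⟩ a (1 * ((q' : ℤ) + 1)) hxq ?_
    have e : (((1 * ((q' : ℤ) + 1) : ℤ)) : Zb) = (q' : Zb) + 1 := by push_cast; ring
    rw [e]; exact h
  · refine ⟨-1, y, Or.inr rfl, hy0, hypar, hyell, hgood, ?_⟩
    refine hyeig ⟨q', hq'⟩ a (-1 * ((q' : ℤ) + 1)) hxq ?_
    have e : a - (((-1 * ((q' : ℤ) + 1) : ℤ)) : Zb) = a + ((q' : Zb) + 1) := by push_cast; ring
    rw [e]; exact h

end Fermat.Agent.S41.H16
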