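import Mathlib
import Fermat.Agent.S41.H16.Red

/-!
# S41, leaf RED, integral form

* `exists_range_lift_of_ker_le`: on a finitely generated group, a homomorphism `y` to `ℤ/n` which
  vanishes on the kernel of a homomorphism `x` to a torsion-free abelian group is the reduction of
  `φ ∘ x` for an additive `φ : x(G) → ℤ` (the image of `x` is free).
* `exists_int_hom`: the integral refinement of `exists_modp_hom`.
* `red_int_of_eigenHom`: the conclusion of the leaf `red_int` of the S41 top skeleton (integral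
  architecture), from the complex Betti eigenvector attached to the eigenform (leaf T1).
-/

set_option autoImplicit false

open CongruenceSubgroup ModularCurve ModularCurve.Period
open Fermat.Agent.S16.H75 (heckeHom)

namespace Fermat.Agent.S41.H16

/-- **Free lift.**  Let `G` be a finitely generated group, `x : G → M` a homomorphism to a
torsion-free abelian group and `y : G → ℤ/n` a homomorphism vanishing on `ker x`.  Then `y` is the
reduction of `φ ∘ x` for an additive `φ : x(G) → ℤ` (the image of `x` is free). -/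
theorem exists_range_lift_of_ker_le {G : Type*} [Group G] [Group.FG G] {M : Type*}
    [AddCommGroup M] [NoZeroSMulDivisors ℤ M] (x : Additive G →+ M) (n : ℕ)
    (y : Additive G →+ ZMod n) (hker : ∀ g, x g = 0 → y g = 0) :
    ∃ φ : AddMonoidHom.range x →+ ℤ,
      (Int.castAddHom (ZMod n)).comp (φ.comp x.rangeRestrict) = y := by
  classical
  -- the image of `x`, a finitely generated torsion-free abelian group
  let R : Submodule ℤ M := (AddMonoidHom.range x).toIntSubmodule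
  have hxR : ∀ g, x g ∈ R := fun g => ⟨g, rfl⟩
  let x₀ : Additive G →+ R := x.codRestrict R hxR
  have hx₀surj : Function.Surjective x₀ := by
    rintro ⟨_, g, rfl⟩
    exact ⟨g, rfl⟩
  have hfin : Module.Finite ℤ R := by
    obtain ⟨s, hs1, hs2⟩ := range_subset_span_of_fg (R := ℤ) x
    refine Module.Finite.of_fg ?_
    refine ⟨s, le_antisymm ?_ ?_⟩
    · rw [Submodule.span_le]
      exact hs1
    · rintro m ⟨g, rfl⟩
      exact hs2 ⟨g, rfl⟩
  have hfree : Module.Free ℤ R := Module.free_of_finite_type_torsion_free'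
  -- `y` factors through `R`
  have hyker : ∀ g h, x₀ g = x₀ h → y g = y h := by
    intro g h hgh
    have h1 : x (g - h) = 0 := by
      rw [map_sub, sub_eq_zero]
      exact congrArg Subtype.val hgh
    have h2 := hker _ h1
    rwa [map_sub, sub_eq_zero] at h2
  let ybar : R →+ ZMod n :=
    { toFun := fun r => y (Function.surjInv hx₀surj r)
      map_zero' := by
        have h := Function.surjInv_eq hx₀surj (0 : R)
        have h2 := hyker _ 0 (by rw [h, map_zero])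
        rw [h2, map_zero]
      map_add' := by
        intro r r'
        have h := hyker (Function.surjInv hx₀surj (r + r'))
          (Function.surjInv hx₀surj r + Function.surjInv hx₀surj r') (by
            rw [map_add, Function.surjInv_eq hx₀surj, Function.surjInv_eq hx₀surj,
              Function.surjInv_eq hx₀surj])
        rw [h, map_add] }
  have hybar : ∀ g, ybar (x₀ g) = y g := fun g =>
    hyker _ _ (Function.surjInv_eq hx₀surj (x₀ g))
  -- projective lifting along `ℤ → ℤ/n`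
  have hsurj : Function.Surjective (Int.castAddHom (ZMod n)).toIntLinearMap :=
    ZMod.intCast_surjective
  obtain ⟨h, hh⟩ := Module.projective_lifting_property (Int.castAddHom (ZMod n)).toIntLinearMap
    ybar.toIntLinearMap hsurj
  let e : AddMonoidHom.range x →+ R :=
    { toFun := fun r => ⟨r.1, r.2⟩
      map_zero' := rfl
      map_add' := fun _ _ => rfl }
  refine ⟨h.toAddMonoidHom.comp e, ?_⟩
  refine AddMonoidHom.ext fun g => ?_
  have := LinearMap.congr_fun hh (x₀ g)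
  show ((h (x₀ g) : ℤ) : ZMod n) = y g
  rw [← hybar g]
  exact this

local notation "Zb" => integralClosure ℤ ℂ

/-- Variant of `exists_modp_hom` recording that the mod `p` class vanishes wherever `x` does. -/
theorem exists_modp_hom_ker {N : ℕ} [NeZero N] {p : ℕ} (hp : p.Prime) (𝔪 : Ideal Zb)
    (hmax : 𝔪.IsMaximal) (hpm : (p : Zb) ∈ 𝔪)
    (x : Additive (Gamma0 N) →+ ℂ) (hx0 : x ≠ 0) :
    ∃ y : Additive (Gamma0 N) →+ ZMod p, y ≠ 0 ∧ (∀ g, x g = 0 → y g = 0) ∧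
      ∀ (ℓ : Nat.Primes) (c : Zb) (n : ℤ), heckeHom N ℓ ℂ x = (c : ℂ) • x →
        c - (n : Zb) ∈ 𝔪 → heckeHom N ℓ (ZMod p) y = n • y := by
  classical
  have : Fact p.Prime := ⟨hp⟩
  have : Group.FG (Gamma0 N) := Fermat.Agent.S22.H75.fg_Gamma0 N
  -- the lattice `Λ`
  obtain ⟨s, hs1, hs2⟩ := range_subset_span_of_fg (R := Zb) x
  let Λ : Submodule Zb ℂ := Submodule.span Zb (s : Set ℂ)
  have hΛfg : Λ.FG := ⟨s, rfl⟩
  have hxΛ : ∀ γ, x γ ∈ Λ := fun γ => hs2 ⟨γ, rfl⟩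
  -- `x` as a homomorphism to `Λ`
  let xΛ : Additive (Gamma0 N) →+ Λ := x.codRestrict Λ hxΛ
  have hxΛ_coe : ∀ γ, ((xΛ γ : Λ) : ℂ) = x γ := fun γ => rfl
  -- the values of `xΛ` span `Λ`
  have hspan : Submodule.span Zb (Set.range xΛ) = ⊤ := by
    rw [eq_top_iff]
    rintro ⟨v, hv⟩ -
    induction hv using Submodule.span_induction with
    | mem v hv =>
      obtain ⟨γ, rfl⟩ := hs1 hv
      exact Submodule.subset_span ⟨γ, rfl⟩
    | zero => exact Submodule.zero_mem _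
    | add u v hu hv hu' hv' => exact Submodule.add_mem _ hu' hv'
    | smul a v hv hv' => exact Submodule.smul_mem _ a hv'
  -- Nakayama: `𝔪 Λ ≠ Λ`
  have hnak : ¬ (⊤ : Submodule Zb Λ) ≤ 𝔪 • (⊤ : Submodule Zb Λ) := by
    intro hle
    have hfg : (⊤ : Submodule Zb Λ).FG := (Submodule.fg_top Λ).mpr hΛfg
    obtain ⟨r, hr1, hr0⟩ :=
      Submodule.exists_sub_one_mem_and_smul_eq_zero_of_fg_of_le_smul 𝔪 _ hfg hle
    obtain ⟨γ₀, hγ₀⟩ : ∃ γ₀, x γ₀ ≠ 0 := by
      by_contra hcon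
      push Not at hcon
      exact hx0 (AddMonoidHom.ext hcon)
    have h0 := hr0 (xΛ γ₀) Submodule.mem_top
    have h0' : (r : ℂ) * x γ₀ = 0 := by
      have := congrArg (fun v : Λ => (v : ℂ)) h0
      simpa [Submodule.coe_smul, hxΛ_coe] using this
    have hr : r = 0 := by
      rcases mul_eq_zero.mp h0' with h | h
      · exact Subtype.ext h
      · exact absurd h hγ₀
    rw [hr, zero_sub] at hr1
    exact hmax.ne_top ((Ideal.eq_top_iff_one _).mpr (by simpa using 𝔪.neg_mem hr1))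
  -- a value of `xΛ` outside `𝔪 Λ`
  obtain ⟨γ₀, hγ₀⟩ : ∃ γ₀, xΛ γ₀ ∉ 𝔪 • (⊤ : Submodule Zb Λ) := by
    by_contra hcon
    push Not at hcon
    apply hnak
    have hle : Submodule.span Zb (Set.range xΛ) ≤ 𝔪 • (⊤ : Submodule Zb Λ) := by
      rw [Submodule.span_le]
      rintro _ ⟨γ, rfl⟩
      exact hcon γ
    rwa [hspan] at hle
  -- the quotient `Λ / 𝔪 Λ` is an `𝔽_p`-vector space
  let Q := Λ ⧸ (𝔪 • (⊤ : Submodule Zb Λ))
  let π : Λ →+ Q := (Submodule.mkQ (𝔪 • (⊤ : Submodule Zb Λ))).toAddMonoidHom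
  have hπ0 : ∀ v : Λ, π v = 0 ↔ v ∈ 𝔪 • (⊤ : Submodule Zb Λ) := fun v =>
    Submodule.Quotient.mk_eq_zero _
  have hπm : ∀ (a : Zb) (v : Λ), a ∈ 𝔪 → π (a • v) = 0 := fun a v ha =>
    (hπ0 _).mpr (Submodule.smul_mem_smul ha Submodule.mem_top)
  have hkill : ∀ q : Q, p • q = 0 := by
    intro q
    obtain ⟨v, rfl⟩ := Submodule.Quotient.mk_surjective _ q
    have h1 : p • (Submodule.Quotient.mk v : Q) = π ((p : Zb) • v) := by
      show p • π v = π ((p : Zb) • v)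
      rw [← map_nsmul, Nat.cast_smul_eq_nsmul]
    rw [h1]
    exact hπm _ v hpm
  -- a functional not killing `π (xΛ γ₀)`
  have hv0 : π (xΛ γ₀) ≠ 0 := fun h => hγ₀ ((hπ0 _).mp h)
  obtain ⟨ψ, hψ⟩ := exists_hom_zmod_ne_zero hkill hv0
  let Ψ : Λ →+ ZMod p := ψ.comp π
  refine ⟨Ψ.comp xΛ, ?_, ?_, ?_⟩
  · intro h
    exact hψ (DFunLike.congr_fun h γ₀)
  · intro g hg
    have h0 : xΛ g = 0 := Subtype.ext hg
    show Ψ (xΛ g) = 0
    rw [h0, map_zero]
  · intro ℓ c n hc hcn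
    rw [Fermat.Agent.S16.H75.heckeHom_comp]
    -- the eigen-relation over `Λ`
    have hΛeig : heckeHom N ℓ Λ xΛ = (DistribSMul.toAddMonoidHom Λ c).comp xΛ := by
      have hinj : Function.Injective (Λ.subtype.toAddMonoidHom) := Subtype.val_injective
      have h1 : Λ.subtype.toAddMonoidHom.comp (heckeHom N ℓ Λ xΛ) =
          Λ.subtype.toAddMonoidHom.comp ((DistribSMul.toAddMonoidHom Λ c).comp xΛ) := by
        rw [← Fermat.Agent.S16.H75.heckeHom_comp]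
        have h2 : Λ.subtype.toAddMonoidHom.comp xΛ = x := AddMonoidHom.ext fun γ => rfl
        rw [h2, hc]
        refine AddMonoidHom.ext fun γ => ?_
        show (c : ℂ) • x γ = ((c • xΛ γ : Λ) : ℂ)
        rw [Submodule.coe_smul, hxΛ_coe]
        rfl
      refine AddMonoidHom.ext fun γ => ?_
      exact hinj (DFunLike.congr_fun h1 γ)
    rw [hΛeig]
    refine AddMonoidHom.ext fun γ => ?_
    show Ψ (c • xΛ γ) = n • Ψ (xΛ γ)
    have h3 : c • xΛ γ = (c - (n : Zb)) • xΛ γ + n • xΛ γ := by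
      have e1 : (c - (n : Zb)) • xΛ γ = c • xΛ γ - (n : Zb) • xΛ γ := sub_smul c (n : Zb) (xΛ γ)
      have e2 : (n : Zb) • xΛ γ = n • xΛ γ := Int.cast_smul_eq_zsmul Zb n (xΛ γ)
      rw [e1, e2]; abel
    rw [h3, map_add, map_zsmul]
    have h4 : Ψ ((c - (n : Zb)) • xΛ γ) = 0 := by
      show ψ (π ((c - (n : Zb)) • xΛ γ)) = 0
      rw [hπm _ _ hcn, map_zero]
    rw [h4, zero_add]

/-- **Integral form of `exists_modp_hom`.**  For a nonzero parabolic `x : Γ₀(N) → ℂ` and a maximal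
ideal `𝔪 ∋ p` of `ℤ̄` there is a parabolic `z : Γ₀(N) → ℤ`, nonzero modulo `p`, such that every
eigen-relation `T_ℓ x = c • x` with `c ∈ ℤ̄` congruent to an integer `n` modulo `𝔪` holds for
`z mod p` with eigenvalue `n`.  Moreover `z` and all its Hecke transforms vanish wherever `x`
resp. its Hecke transforms do (`z = φ ∘ x` for an additive `φ : x(Γ) → ℤ`). -/
theorem exists_int_hom {N : ℕ} [NeZero N] {p : ℕ} (hp : p.Prime) (𝔪 : Ideal Zb)
    (hmax : 𝔪.IsMaximal) (hpm : (p : Zb) ∈ 𝔪)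
    (x : Additive (Gamma0 N) →+ ℂ) (hx0 : x ≠ 0) :
    ∃ z : Additive (Gamma0 N) →+ ℤ, (∀ g, x g = 0 → z g = 0) ∧
      (∀ (ℓ : Nat.Primes) g, heckeHom N ℓ ℂ x g = 0 → heckeHom N ℓ ℤ z g = 0) ∧
      (Int.castAddHom (ZMod p)).comp z ≠ 0 ∧
      ∀ (ℓ : Nat.Primes) (c : Zb) (n : ℤ), heckeHom N ℓ ℂ x = (c : ℂ) • x →
        c - (n : Zb) ∈ 𝔪 →
        heckeHom N ℓ (ZMod p) ((Int.castAddHom (ZMod p)).comp z) =
          n • (Int.castAddHom (ZMod p)).comp z := by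
  have : Group.FG (Gamma0 N) := Fermat.Agent.S22.H75.fg_Gamma0 N
  obtain ⟨y, hy0, hker, hyeig⟩ := exists_modp_hom_ker hp 𝔪 hmax hpm x hx0
  obtain ⟨φ, hφ⟩ := exists_range_lift_of_ker_le x p y hker
  have hsub : (AddMonoidHom.range x).subtype.comp x.rangeRestrict = x :=
    AddMonoidHom.ext fun g => rfl
  refine ⟨φ.comp x.rangeRestrict, ?_, ?_, ?_, ?_⟩
  · intro g hg
    have h0 : x.rangeRestrict g = 0 := Subtype.ext hg
    show φ (x.rangeRestrict g) = 0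
    rw [h0, map_zero]
  · intro ℓ g hg
    rw [Fermat.Agent.S16.H75.heckeHom_comp]
    have h1 : (AddMonoidHom.range x).subtype.comp
        (heckeHom N ℓ (AddMonoidHom.range x) x.rangeRestrict) = heckeHom N ℓ ℂ x := by
      rw [← Fermat.Agent.S16.H75.heckeHom_comp, hsub]
    have h0 : heckeHom N ℓ (AddMonoidHom.range x) x.rangeRestrict g = 0 := by
      apply Subtype.ext
      have := DFunLike.congr_fun h1 g
      rw [hg] at this
      exact this
    show φ (heckeHom N ℓ (AddMonoidHom.range x) x.rangeRestrict g) = 0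
    rw [h0, map_zero]
  · rw [hφ]; exact hy0
  · intro ℓ c n hc hcn
    rw [hφ]
    exact hyeig ℓ c n hc hcn

/-- **Leaf RED, integral form, from T1.**  The conclusion of the leaf `red_int` of the S41 top
skeleton (integral architecture): an integral parabolic class, nonzero modulo `p`, whose reduction
is an eigenvector of `T_ℓ` with eigenvalue `a_ℓ(W)` at the good primes `ℓ ∤ N`, `ℓ ≠ p`, and of
`T_q'` with eigenvalue `± (q' + 1)`.  `hT1` is the complex Betti eigenvector attached to the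
eigenform (Eichler–Shimura dictionary, leaf T1). -/
theorem red_int_of_eigenHom {W : WeierstrassCurve ℤ} {p N q' : ℕ} [NeZero N] (hp : p.Prime)
    (hq' : q'.Prime)
    (f : CuspForm (CongruenceSubgroup.Gamma0 N) 2) (𝔪 : Ideal (integralClosure ℤ ℂ))
    (hmax : 𝔪.IsMaximal) (hpm : (p : integralClosure ℤ ℂ) ∈ 𝔪)
    (hcong : ∀ ℓ : ℕ, ℓ.Prime → W.IsGoodPrimeFor ℓ → ¬ ℓ ∣ N → ℓ ≠ p →
      ∃ a : integralClosure ℤ ℂ, (a : ℂ) = ModularFormClass.qCoeff f ℓ ∧
        a - ((W.apOfModel ℓ : ℤ) : integralClosure ℤ ℂ) ∈ 𝔪)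
    (hLR : ∃ a : integralClosure ℤ ℂ, (a : ℂ) = ModularFormClass.qCoeff f q' ∧
      a ^ 2 - ((q' : integralClosure ℤ ℂ) + 1) ^ 2 ∈ 𝔪)
    (hT1 : ∃ x : Additive (Gamma0 N) →+ ℂ, x ∈ parabolicHoms ℂ (Gamma0 N) ℂ ∧ x ≠ 0 ∧
      ∀ l : Nat.Primes, heckeHom N l ℂ x = ModularFormClass.qCoeff f l • x) :
    ∃ (ε : ℤ) (x : Additive (Gamma0 N) →+ ℤ), (ε = 1 ∨ ε = -1) ∧
      IsParabolicHom (Gamma0 N) x ∧
      (Int.castAddHom (ZMod p)).comp x ≠ 0 ∧
      (∀ ℓ : Nat.Primes, W.IsGoodPrimeFor ℓ → ¬ (ℓ : ℕ) ∣ N → (ℓ : ℕ) ≠ p →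
        heckeHom N ℓ (ZMod p) ((Int.castAddHom (ZMod p)).comp x) =
          W.apOfModel ℓ • (Int.castAddHom (ZMod p)).comp x) ∧
      heckeHom N ⟨q', hq'⟩ (ZMod p) ((Int.castAddHom (ZMod p)).comp x) =
        (ε * ((q' : ℤ) + 1)) • (Int.castAddHom (ZMod p)).comp x := by
  obtain ⟨x, hxpar, hx0, hxeig⟩ := hT1
  obtain ⟨z, hzker, -, hz0, hzeig⟩ := exists_int_hom hp 𝔪 hmax hpm x hx0
  have hzpar : IsParabolicHom (Gamma0 N) z := fun γ hγ => hzker _ (hxpar γ hγ)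
  have hgood : ∀ ℓ : Nat.Primes, W.IsGoodPrimeFor ℓ → ¬ (ℓ : ℕ) ∣ N → (ℓ : ℕ) ≠ p →
      heckeHom N ℓ (ZMod p) ((Int.castAddHom (ZMod p)).comp z) =
        W.apOfModel ℓ • (Int.castAddHom (ZMod p)).comp z := by
    intro ℓ hg hℓN hℓp
    obtain ⟨a, ha, ham⟩ := hcong ℓ ℓ.2 hg hℓN hℓp
    refine hzeig ℓ a (W.apOfModel ℓ) ?_ ham
    rw [hxeig ℓ, ha]
  obtain ⟨a, ha, ham⟩ := hLR
  have hfac : (a - ((q' : Zb) + 1)) * (a + ((q' : Zb) + 1)) ∈ 𝔪 := by
    have : (a - ((q' : Zb) + 1)) * (a + ((q' : Zb) + 1)) = a ^ 2 - ((q' : Zb) + 1) ^ 2 := by ring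
    rw [this]; exact ham
  have hxq : heckeHom N ⟨q', hq'⟩ ℂ x = (a : ℂ) • x := by
    rw [hxeig ⟨q', hq'⟩, ha]
  rcases hmax.isPrime.mem_or_mem hfac with h | h
  · refine ⟨1, z, Or.inl rfl, hzpar, hz0, hgood, ?_⟩
    refine hzeig ⟨q', hq'⟩ a (1 * ((q' : ℤ) + 1)) hxq ?_
    have e : (((1 * ((q' : ℤ) + 1) : ℤ)) : Zb) = (q' : Zb) + 1 := by push_cast; ring
    rw [e]; exact h
  · refine ⟨-1, z, Or.inr rfl, hzpar, hz0, hgood, ?_⟩
    refine hzeig ⟨q', hq'⟩ a (-1 * ((q' : ℤ) + 1)) hxq ?_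
    have e : a - (((-1 * ((q' : ℤ) + 1) : ℤ)) : Zb) = a + ((q' : Zb) + 1) := by push_cast; ring
    rw [e]; exact h

/-- A homomorphism to `ℤ` whose reduction modulo `n ≠ 0` vanishes is `n` times a homomorphism,
which vanishes wherever the given one does. -/
theorem exists_eq_nsmul_of_castAddHom_comp_eq_zero {G : Type*} [Group G] {n : ℕ} (hn : n ≠ 0)
    (φ : Additive G →+ ℤ) (h : (Int.castAddHom (ZMod n)).comp φ = 0) :
    ∃ φ' : Additive G →+ ℤ, φ = n • φ' ∧ ∀ g, φ g = 0 → φ' g = 0 := by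
  have hdvd : ∀ g, (n : ℤ) ∣ φ g := fun g =>
    (ZMod.intCast_zmod_eq_zero_iff_dvd _ n).mp (DFunLike.congr_fun h g)
  have hn' : (n : ℤ) ≠ 0 := Int.natCast_ne_zero.mpr hn
  refine ⟨{ toFun := fun g => φ g / n
            map_zero' := by simp
            map_add' := fun g g' => by
              rw [map_add, Int.add_ediv_of_dvd_left (hdvd g)] }, ?_, ?_⟩
  · refine AddMonoidHom.ext fun g => ?_
    show φ g = n • (φ g / n)
    rw [nsmul_eq_mul, Int.mul_ediv_cancel' (hdvd g)]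
  · intro g hg
    show φ g / n = 0
    rw [hg, Int.zero_ediv]

/-- **Leaf RED, integral form with explicit quotients, from T1.**  Same as `red_int_of_eigenHom`,
with the congruences written in the lattice of integral parabolic classes:
`T_ℓ x - a_ℓ(W) x = p z` with `z` integral parabolic. -/
theorem red_int_of_eigenHom' {W : WeierstrassCurve ℤ} {p N q' : ℕ} [NeZero N] (hp : p.Prime)
    (hq' : q'.Prime)
    (f : CuspForm (CongruenceSubgroup.Gamma0 N) 2) (𝔪 : Ideal (integralClosure ℤ ℂ))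
    (hmax : 𝔪.IsMaximal) (hpm : (p : integralClosure ℤ ℂ) ∈ 𝔪)
    (hcong : ∀ ℓ : ℕ, ℓ.Prime → W.IsGoodPrimeFor ℓ → ¬ ℓ ∣ N → ℓ ≠ p →
      ∃ a : integralClosure ℤ ℂ, (a : ℂ) = ModularFormClass.qCoeff f ℓ ∧
        a - ((W.apOfModel ℓ : ℤ) : integralClosure ℤ ℂ) ∈ 𝔪)
    (hLR : ∃ a : integralClosure ℤ ℂ, (a : ℂ) = ModularFormClass.qCoeff f q' ∧
      a ^ 2 - ((q' : integralClosure ℤ ℂ) + 1) ^ 2 ∈ 𝔪)
    (hT1 : ∃ x : Additive (Gamma0 N) →+ ℂ, x ∈ parabolicHoms ℂ (Gamma0 N) ℂ ∧ x ≠ 0 ∧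
      ∀ l : Nat.Primes, heckeHom N l ℂ x = ModularFormClass.qCoeff f l • x) :
    ∃ (ε : ℤ) (x : Additive (Gamma0 N) →+ ℤ), (ε = 1 ∨ ε = -1) ∧
      IsParabolicHom (Gamma0 N) x ∧ (∃ γ, ¬ (p : ℤ) ∣ x γ) ∧
      (∀ ℓ : Nat.Primes, W.IsGoodPrimeFor ℓ → ¬ (ℓ : ℕ) ∣ N → (ℓ : ℕ) ≠ p →
        ∃ z : Additive (Gamma0 N) →+ ℤ, IsParabolicHom (Gamma0 N) z ∧
          heckeHom N ℓ ℤ x - W.apOfModel ℓ • x = p • z) ∧
      ∃ z : Additive (Gamma0 N) →+ ℤ, IsParabolicHom (Gamma0 N) z ∧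
        heckeHom N ⟨q', hq'⟩ ℤ x - (ε * ((q' : ℤ) + 1)) • x = p • z := by
  obtain ⟨x, hxpar, hx0, hxeig⟩ := hT1
  obtain ⟨z, hzker, hzhecke, hz0, hzeig⟩ := exists_int_hom hp 𝔪 hmax hpm x hx0
  have hzpar : IsParabolicHom (Gamma0 N) z := fun γ hγ => hzker _ (hxpar γ hγ)
  -- `z` is not divisible by `p`
  have hnd : ∃ γ, ¬ (p : ℤ) ∣ z γ := by
    by_contra hcon
    push Not at hcon
    apply hz0
    refine AddMonoidHom.ext fun γ => ?_
    exact (ZMod.intCast_zmod_eq_zero_iff_dvd _ p).mpr (hcon γ)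
  -- the Hecke transforms of `z` vanish on parabolic elements
  have hTpar : ∀ (ℓ : Nat.Primes) (γ : Gamma0 N),
      ((γ : Matrix.SpecialLinearGroup (Fin 2) ℤ) : Matrix (Fin 2) (Fin 2) ℤ).trace ^ 2 = 4 →
      heckeHom N ℓ ℤ z (Additive.ofMul γ) = 0 := by
    intro ℓ γ hγ
    apply hzhecke
    rw [hxeig ℓ]
    show ModularFormClass.qCoeff f ℓ • x (Additive.ofMul γ) = 0
    rw [hxpar γ hγ, smul_zero]
  -- from a congruence to an explicit quotient
  have key : ∀ (ℓ : Nat.Primes) (n : ℤ),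
      heckeHom N ℓ (ZMod p) ((Int.castAddHom (ZMod p)).comp z) =
        n • (Int.castAddHom (ZMod p)).comp z →
      ∃ w : Additive (Gamma0 N) →+ ℤ, IsParabolicHom (Gamma0 N) w ∧
        heckeHom N ℓ ℤ z - n • z = p • w := by
    intro ℓ n hn
    have h0 : (Int.castAddHom (ZMod p)).comp (heckeHom N ℓ ℤ z - n • z) = 0 := by
      have h1 : (Int.castAddHom (ZMod p)).comp (heckeHom N ℓ ℤ z - n • z) =
          (Int.castAddHom (ZMod p)).comp (heckeHom N ℓ ℤ z) -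
            n • (Int.castAddHom (ZMod p)).comp z := by
        refine AddMonoidHom.ext fun g => ?_
        show (((heckeHom N ℓ ℤ z g - n • z g : ℤ)) : ZMod p) =
          ((heckeHom N ℓ ℤ z g : ℤ) : ZMod p) - n • ((z g : ℤ) : ZMod p)
        rw [smul_eq_mul, zsmul_eq_mul]
        push_cast
        rfl
      rw [h1, ← Fermat.Agent.S16.H75.heckeHom_comp, hn, sub_self]
    obtain ⟨w, hw, hwker⟩ := exists_eq_nsmul_of_castAddHom_comp_eq_zero hp.ne_zero _ h0
    refine ⟨w, fun γ hγ => hwker _ ?_, hw⟩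
    show heckeHom N ℓ ℤ z (Additive.ofMul γ) - n • z (Additive.ofMul γ) = 0
    rw [hTpar ℓ γ hγ, hzpar γ hγ, smul_zero, sub_zero]
  have hgood : ∀ ℓ : Nat.Primes, W.IsGoodPrimeFor ℓ → ¬ (ℓ : ℕ) ∣ N → (ℓ : ℕ) ≠ p →
      ∃ w : Additive (Gamma0 N) →+ ℤ, IsParabolicHom (Gamma0 N) w ∧
        heckeHom N ℓ ℤ z - W.apOfModel ℓ • z = p • w := by
    intro ℓ hg hℓN hℓp
    obtain ⟨a, ha, ham⟩ := hcong ℓ ℓ.2 hg hℓN hℓp
    refine key ℓ _ (hzeig ℓ a (W.apOfModel ℓ) ?_ ham)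
    rw [hxeig ℓ, ha]
  obtain ⟨a, ha, ham⟩ := hLR
  have hfac : (a - ((q' : Zb) + 1)) * (a + ((q' : Zb) + 1)) ∈ 𝔪 := by
    have : (a - ((q' : Zb) + 1)) * (a + ((q' : Zb) + 1)) = a ^ 2 - ((q' : Zb) + 1) ^ 2 := by ring
    rw [this]; exact ham
  have hxq : heckeHom N ⟨q', hq'⟩ ℂ x = (a : ℂ) • x := by
    rw [hxeig ⟨q', hq'⟩, ha]
  rcases hmax.isPrime.mem_or_mem hfac with h | h
  · refine ⟨1, z, Or.inl rfl, hzpar, hnd, hgood, ?_⟩
    refine key ⟨q', hq'⟩ _ (hzeig ⟨q', hq'⟩ a (1 * ((q' : ℤ) + 1)) hxq ?_)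
    have e : (((1 * ((q' : ℤ) + 1) : ℤ)) : Zb) = (q' : Zb) + 1 := by push_cast; ring
    rw [e]; exact h
  · refine ⟨-1, z, Or.inr rfl, hzpar, hnd, hgood, ?_⟩
    refine key ⟨q', hq'⟩ _ (hzeig ⟨q', hq'⟩ a (-1 * ((q' : ℤ) + 1)) hxq ?_)
    have e : a - (((-1 * ((q' : ℤ) + 1) : ℤ)) : Zb) = a + ((q' : Zb) + 1) := by push_cast; ring
    rw [e]; exact h

end Fermat.Agent.S41.H16
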