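import Fermat.Agent.S41.H16.EigenHom
import Fermat.Agent.S41.H16.RedInt

/-!
# S41, leaf RED: unconditional forms

`red_int` is the binding statement of the top skeleton (integral architecture): from a normalised
eigenform `f` of level `N` congruent to `W` modulo `𝔪 ∋ p` and with `a_q'(f)² ≡ (q'+1)²`, an
integral parabolic class on `Γ₀(N)`, nonzero modulo `p`, whose reduction is an eigenvector of
`T_ℓ` with eigenvalue `a_ℓ(W)` at the good primes and of `T_q'` with eigenvalue `± (q' + 1)`.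
-/

set_option autoImplicit false
open CongruenceSubgroup ModularCurve ModularCurve.Period
open Fermat.Agent.S16.H75 (heckeHom)

namespace Fermat.Agent.S41.H16

/-- **Leaf RED** (binding integral form). -/
theorem red_int {W : WeierstrassCurve ℤ} {p N q' : ℕ} (hp : p.Prime) (hN : 0 < N)
    (hq' : q'.Prime)
    (f : CuspForm (CongruenceSubgroup.Gamma0 N) 2) (𝔪 : Ideal (integralClosure ℤ ℂ))
    (hf : f.IsNormalizedEigenform) (hmax : 𝔪.IsMaximal) (hpm : (p : integralClosure ℤ ℂ) ∈ 𝔪)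
    (hcong : ∀ ℓ : ℕ, ℓ.Prime → W.IsGoodPrimeFor ℓ → ¬ ℓ ∣ N → ℓ ≠ p →
      ∃ a : integralClosure ℤ ℂ, (a : ℂ) = ModularFormClass.qCoeff f ℓ ∧
        a - ((W.apOfModel ℓ : ℤ) : integralClosure ℤ ℂ) ∈ 𝔪)
    (hLR : ∃ a : integralClosure ℤ ℂ, (a : ℂ) = ModularFormClass.qCoeff f q' ∧
      a ^ 2 - ((q' : integralClosure ℤ ℂ) + 1) ^ 2 ∈ 𝔪) :
    ∃ (ε : ℤ) (x : Additive (Gamma0 N) →+ ℤ), (ε = 1 ∨ ε = -1) ∧
      IsParabolicHom (Gamma0 N) x ∧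
      (Int.castAddHom (ZMod p)).comp x ≠ 0 ∧
      (∀ ℓ : Nat.Primes, W.IsGoodPrimeFor ℓ → ¬ (ℓ : ℕ) ∣ N → (ℓ : ℕ) ≠ p →
        heckeHom N ℓ (ZMod p) ((Int.castAddHom (ZMod p)).comp x) =
          W.apOfModel ℓ • (Int.castAddHom (ZMod p)).comp x) ∧
      heckeHom N ⟨q', hq'⟩ (ZMod p) ((Int.castAddHom (ZMod p)).comp x) =
        (ε * ((q' : ℤ) + 1)) • (Int.castAddHom (ZMod p)).comp x := by
  have : NeZero N := ⟨hN.ne'⟩
  exact red_int_of_eigenHom hp hq' f 𝔪 hmax hpm hcong hLR (exists_eigenHom_of_eigenform N f hf)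

/-- **Leaf RED** (integral form with explicit quotients in the lattice of parabolic classes). -/
theorem red_int' {W : WeierstrassCurve ℤ} {p N q' : ℕ} (hp : p.Prime) (hN : 0 < N)
    (hq' : q'.Prime)
    (f : CuspForm (CongruenceSubgroup.Gamma0 N) 2) (𝔪 : Ideal (integralClosure ℤ ℂ))
    (hf : f.IsNormalizedEigenform) (hmax : 𝔪.IsMaximal) (hpm : (p : integralClosure ℤ ℂ) ∈ 𝔪)
    (hcong : ∀ ℓ : ℕ, ℓ.Prime → W.IsGoodPrimeFor ℓ → ¬ ℓ ∣ N → ℓ ≠ p →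
      ∃ a : integralClosure ℤ ℂ, (a : ℂ) = ModularFormClass.qCoeff f ℓ ∧
        a - ((W.apOfModel ℓ : ℤ) : integralClosure ℤ ℂ) ∈ 𝔪)
    (hLR : ∃ a : integralClosure ℤ ℂ, (a : ℂ) = ModularFormClass.qCoeff f q' ∧
      a ^ 2 - ((q' : integralClosure ℤ ℂ) + 1) ^ 2 ∈ 𝔪) :
    ∃ (ε : ℤ) (x : Additive (Gamma0 N) →+ ℤ), (ε = 1 ∨ ε = -1) ∧
      IsParabolicHom (Gamma0 N) x ∧ (∃ γ, ¬ (p : ℤ) ∣ x γ) ∧
      (∀ ℓ : Nat.Primes, W.IsGoodPrimeFor ℓ → ¬ (ℓ : ℕ) ∣ N → (ℓ : ℕ) ≠ p →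
        ∃ z : Additive (Gamma0 N) →+ ℤ, IsParabolicHom (Gamma0 N) z ∧
          heckeHom N ℓ ℤ x - W.apOfModel ℓ • x = p • z) ∧
      ∃ z : Additive (Gamma0 N) →+ ℤ, IsParabolicHom (Gamma0 N) z ∧
        heckeHom N ⟨q', hq'⟩ ℤ x - (ε * ((q' : ℤ) + 1)) • x = p • z := by
  have : NeZero N := ⟨hN.ne'⟩
  exact red_int_of_eigenHom' hp hq' f 𝔪 hmax hpm hcong hLR (exists_eigenHom_of_eigenform N f hf)

/-- **Leaf RED** (`ℤ/p` form of the first top skeleton). -/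
theorem red {W : WeierstrassCurve ℤ} {p N q' : ℕ} (hp : p.Prime) (hN : 0 < N)
    (hq' : q'.Prime)
    (f : CuspForm (CongruenceSubgroup.Gamma0 N) 2) (𝔪 : Ideal (integralClosure ℤ ℂ))
    (hf : f.IsNormalizedEigenform) (hmax : 𝔪.IsMaximal) (hpm : (p : integralClosure ℤ ℂ) ∈ 𝔪)
    (hcong : ∀ ℓ : ℕ, ℓ.Prime → W.IsGoodPrimeFor ℓ → ¬ ℓ ∣ N → ℓ ≠ p →
      ∃ a : integralClosure ℤ ℂ, (a : ℂ) = ModularFormClass.qCoeff f ℓ ∧
        a - ((W.apOfModel ℓ : ℤ) : integralClosure ℤ ℂ) ∈ 𝔪)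
    (hLR : ∃ a : integralClosure ℤ ℂ, (a : ℂ) = ModularFormClass.qCoeff f q' ∧
      a ^ 2 - ((q' : integralClosure ℤ ℂ) + 1) ^ 2 ∈ 𝔪) :
    ∃ (ε : ℤ) (x : Additive (Gamma0 N) →+ ZMod p), (ε = 1 ∨ ε = -1) ∧ x ≠ 0 ∧
      IsParabolicHom (Gamma0 N) x ∧
      (∀ γ : Gamma0 N, IsOfFinOrder γ → x (Additive.ofMul γ) = 0) ∧
      (∀ ℓ : Nat.Primes, W.IsGoodPrimeFor ℓ → ¬ (ℓ : ℕ) ∣ N → (ℓ : ℕ) ≠ p →
        heckeHom N ℓ (ZMod p) x = W.apOfModel ℓ • x) ∧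
      heckeHom N ⟨q', hq'⟩ (ZMod p) x = (ε * ((q' : ℤ) + 1)) • x := by
  have : NeZero N := ⟨hN.ne'⟩
  exact red_of_eigenHom hp hq' f 𝔪 hmax hpm hcong hLR (exists_eigenHom_of_eigenform N f hf)

end Fermat.Agent.S41.H16
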